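/-
S43lib / B0 / Three / Compat  (helper8)  — Project H, block B0, the prime `r = 3`.

**The two Gauss data of level `M q` are compatible with the inclusion of levels `M q ∣ M' q`.**

* `inclL_wq` : the Atkin–Lehner involution `w_q` commutes with the inclusion `FBar (M q) ⊆ FBar (M' q)`;
* `gaussCompat_one`, `gaussCompat_two` : `Kap.GaussCompat` for `Val.gaussOne`, `Val.gaussTwo` along the
  inclusion, with residue map the inclusion `FRes A M ⊆ FRes A M'`.
-/
import Fermat.Agent.LSb.Val.D1H
import Fermat.Agent.S44lib.Kap.Hecke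

set_option autoImplicit false
set_option linter.unusedSectionVars false
set_option linter.style.haveILetI false

noncomputable section

namespace Fermat.Agent.S43lib.B0.Three

open AlgebraicCurve ModularCurve
open Fermat.Agent.S18lib Fermat.Agent.S18lib.V Fermat.Agent.LSb Fermat.Agent.LSb.Val
open Fermat.Agent.S44lib.Kap

local notation "Qb" => AlgebraicClosure ℚ

variable {M M' q : ℕ} [NeZero M] [NeZero M'] [NeZero q] [hq : Fact q.Prime]
variable (A : ValuationSubring Qb) (hqM : ¬ q ∣ M) (hqM' : ¬ q ∣ M') (hA : A.LiesOverPrime q)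
variable (hM : M ∣ M')

local notation "kA" => IsLocalRing.ResidueField A

/-- **(compatibility of the first Gauss data)** -/
theorem gaussCompat_one :
    GaussCompat (gaussOne M q A hqM hA) (gaussOne M' q A hqM' hA)
      (inclL (Nat.mul_dvd_mul_right hM q)) (inclK A hM) where
  mem y hy := by
    obtain ⟨a, b, hab⟩ := (mem_gaussOne_O M q A hqM hA).1 hy
    exact (mem_gaussOne_O M' q A hqM' hA).2 ⟨_, _, hab.incl A (Nat.mul_dvd_mul_right hM q)⟩
  red y hy := by
    obtain ⟨a, b, hab⟩ := (mem_gaussOne_O M q A hqM hA).1 hy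
    have hab' := hab.incl A (Nat.mul_dvd_mul_right hM q)
    have hy' : inclL (Nat.mul_dvd_mul_right hM q) y ∈ (gaussOne M' q A hqM' hA).O :=
      (mem_gaussOne_O M' q A hqM' hA).2 ⟨_, _, hab'⟩
    rw [GaussDatum.redF_of_mem _ hy, GaussDatum.redF_of_mem _ hy']
    apply Subtype.ext
    show ((gaussOneRed M' q A hqM' hA ⟨_, hy'⟩ : FRes A M') : LaurentSeries kA) =
      ((inclK A hM (gaussOneRed M q A hqM hA ⟨y, hy⟩) : FRes A M') : LaurentSeries kA)
    rw [gaussOneRed_apply M' q A hqM' hA hy' hab', coe_inclK,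
      gaussOneRed_apply M q A hqM hA hy hab, elemK_inclI, elemK_inclI, ← map_div₀, coe_inclK]

/-! ### `w_q` and the inclusion of levels -/

theorem inclL_jd {N N' : ℕ} [NeZero N] [NeZero N'] (h : N ∣ N') (d : ℕ) [NeZero d] (hd : d ∣ N) :
    inclL h (jd N d hd) = jd N' d (hd.trans h) :=
  Subtype.ext (by rw [coe_inclL, coe_jd, coe_jd])

/-- **the Atkin–Lehner involution commutes with the inclusion of levels** -/
theorem inclL_wq (y : FBar (M * q)) :
    inclL (Nat.mul_dvd_mul_right hM q) (wq M q hq.out hqM y) =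
      wq M' q hq.out hqM' (inclL (Nat.mul_dvd_mul_right hM q) y) := by
  have hq' : q.Prime := hq.out
  have key : ((inclL (Nat.mul_dvd_mul_right hM q) : FBar (M * q) →ₐ[Qb] FBar (M' * q)) :
        FBar (M * q) →+* FBar (M' * q)).comp
        ((wq M q hq' hqM : FBar (M * q) ≃ₐ[Qb] FBar (M * q)) : FBar (M * q) →+* FBar (M * q)) =
      ((wq M' q hq' hqM' : FBar (M' * q) ≃ₐ[Qb] FBar (M' * q)) :
        FBar (M' * q) →+* FBar (M' * q)).comp
        ((inclL (Nat.mul_dvd_mul_right hM q) : FBar (M * q) →ₐ[Qb] FBar (M' * q)) :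
          FBar (M * q) →+* FBar (M' * q)) := by
    apply ringHom_ext_FBar (L := Qb) (M * q)
    · intro a
      simp only [RingHom.comp_apply, RingHom.coe_coe]
      rw [AlgEquiv.commutes, AlgHom.commutes, AlgEquiv.commutes]
    · intro d _ hd
      simp only [RingHom.comp_apply, RingHom.coe_coe]
      rcases dvd_mul_prime_cases hq' hd with hdM | ⟨d', rfl, hdM⟩
      · have e1 := wq_jd M q hq' hqM d hdM
        have e2 := wq_jd M' q hq' hqM' d (hdM.trans hM)
        have e3 := inclL_jd (Nat.mul_dvd_mul_right hM q) d hd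
        have e4 := inclL_jd (Nat.mul_dvd_mul_right hM q) (d * q) (Nat.mul_dvd_mul_right hdM q)
        exact (congrArg _ e1).trans (e4.trans ((e2.symm).trans (congrArg _ e3.symm)))
      · haveI : NeZero d' := ⟨fun h0 => by
          subst h0
          exact (NeZero.ne (0 * q)) (zero_mul q)⟩
        have e1 := wq_jd_mul M q hq' hqM d' hdM
        have e2 := wq_jd_mul M' q hq' hqM' d' (hdM.trans hM)
        have e3 := inclL_jd (Nat.mul_dvd_mul_right hM q) (d' * q) hd
        have e4 := inclL_jd (Nat.mul_dvd_mul_right hM q) d' (hdM.trans (Dvd.intro _ rfl))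
        exact (congrArg _ e1).trans (e4.trans ((e2.symm).trans (congrArg _ e3.symm)))
  exact congrArg (fun φ : FBar (M * q) →+* FBar (M' * q) => φ y) key

/-- **(compatibility of the second Gauss data)** -/
theorem gaussCompat_two :
    GaussCompat (gaussTwo M q A hqM hA) (gaussTwo M' q A hqM' hA)
      (inclL (Nat.mul_dvd_mul_right hM q)) (inclK A hM) where
  mem y hy := by
    have h1 : wq M q hq.out hqM y ∈ (gaussOne M q A hqM hA).O :=
      (Unit.mem_transport _ _ y).1 hy
    refine (Unit.mem_transport _ _ _).2 ?_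
    rw [← inclL_wq hqM hqM' hM]
    exact (gaussCompat_one A hqM hqM' hA hM).mem _ h1
  red y hy := by
    have h1 : wq M q hq.out hqM y ∈ (gaussOne M q A hqM hA).O :=
      (Unit.mem_transport _ _ y).1 hy
    show (Unit.transport (gaussOne M' q A hqM' hA) (wq M' q hq.out hqM')).redF _ =
      inclK A hM ((Unit.transport (gaussOne M q A hqM hA) (wq M q hq.out hqM)).redF y)
    rw [Unit.transport_redF, Unit.transport_redF, ← inclL_wq hqM hqM' hM]
    exact (gaussCompat_one A hqM hqM' hA hM).red _ h1

end Fermat.Agent.S43lib.B0.Three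

end
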