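/-
S43lib / B0 / Three / Core  (helper8)  — Project H, block B0, the prime `r = 3`.

**The toric/abelian dichotomy of Mazur's principle on a `TameCore`** (the part of `B0.mazur_of_stmts` which does
not use the field `old`): a Galois-equivariant Hecke-eigen copy `V` of `E[p]` inside `J₀(N)[p]`, `E[p]`
irreducible and unramified at `r`, non-Eisenstein, `r ≢ 1 (p)`  ⟹  some `x ∈ V` has `Ψ x ≠ 0` and
`res (Ψ x) = 0`.

* `coreΨ_zsmul`, `core_res_eq_zero` : `TamePackage.Ψ_zsmul`, `TamePackage.res_eq_zero` for a `TameCore`;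
* **`exists_abelian_of_core`**.
-/
import Fermat.Agent.S43lib.B0.Iface
import Fermat.Agent.S43lib.B0.Pkg.Core

set_option autoImplicit false
set_option linter.unusedSectionVars false

noncomputable section

namespace Fermat.Agent.S43lib.B0.Three

open ModularCurve Fermat.Agent.S19lib Fermat.Agent.S33lib Fermat.Agent.S44lib
open WeierstrassCurve WeierstrassCurve.Affine WeierstrassCurve.Affine.Point

local notation "Qb" => AlgebraicClosure ℚ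
local notation "GQ" => (AlgebraicClosure ℚ ≃ₐ[ℚ] AlgebraicClosure ℚ)

variable {N : ℕ} [NeZero N] {r p : ℕ} {A : ValuationSubring Qb}

/-- `Ψ` commutes with integer multiples on `J[p]` -/
theorem coreΨ_zsmul (G : TameCore N r p A) (m : ℤ) (y : JZero N)
    (hy : y ∈ tors N (p : ℤ)) : G.Ψ (m • y) = m • G.Ψ y := by
  have h0 : G.Ψ 0 = 0 := by
    have := G.Ψ_add 0 (zero_mem _) 0 (zero_mem _)
    rw [add_zero] at this
    exact left_eq_add.mp this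
  have hn : ∀ (n : ℕ), ∀ y ∈ tors N (p : ℤ), G.Ψ (n • y) = n • G.Ψ y := by
    intro n y hy
    induction n with
    | zero => simp [h0]
    | succ n ih =>
      rw [succ_nsmul, succ_nsmul, G.Ψ_add _ (nsmul_mem hy n) _ hy, ih]
  have hneg : ∀ y ∈ tors N (p : ℤ), G.Ψ (-y) = - G.Ψ y := by
    intro y hy
    have := G.Ψ_add y hy (-y) (neg_mem hy)
    rw [add_neg_cancel, h0] at this
    exact (neg_eq_of_add_eq_zero_right this.symm).symm
  obtain ⟨n, rfl | rfl⟩ := m.eq_nat_or_neg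
  · rw [natCast_zsmul, natCast_zsmul, hn n y hy]
  · rw [neg_smul, neg_smul, natCast_zsmul, natCast_zsmul, hneg _ (nsmul_mem hy n), hn n y hy]

/-- an inertia-fixed Hecke eigenclass of `J[p]` with a non-Eisenstein eigenvalue has no node orders. -/
theorem core_res_eq_zero (G : TameCore N r p A) (hp : p.Prime) {x : JZero N}
    (hxT : x ∈ tors N (p : ℤ)) (hfix : ∀ σ ∈ IA A, σ • x = x)
    (a : ℕ → ℤ) (S : ℕ → Prop) (hS : ∀ ℓ, S ℓ → ℓ.Prime ∧ ¬ ℓ ∣ N ∧ ℓ ≠ p)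
    (heig : ∀ (ℓ : ℕ) (hℓ : ℓ.Prime), S ℓ → heckeOperatorBar N ⟨ℓ, hℓ⟩ x = (a ℓ) • x)
    (hnonE : ∃ ℓ, S ℓ ∧ ¬ (p : ℤ) ∣ a ℓ - (ℓ + 1)) :
    G.res (G.Ψ x) = 0 := by
  have heigΩ : ∀ (ℓ : ℕ) (hℓ : ℓ.Prime), S ℓ → G.TΩ ⟨ℓ, hℓ⟩ (G.Ψ x) = (a ℓ) • G.Ψ x := by
    intro ℓ hℓ hSℓ
    rw [← G.Ψ_hecke ⟨ℓ, hℓ⟩ (hS ℓ hSℓ).2.1 x hxT, heig ℓ hℓ hSℓ, coreΨ_zsmul G _ x hxT]
  have hres : G.res (G.Ψ x) ∈ G.Eis := G.mono x hxT hfix
  obtain ⟨ℓ, hSℓ, hℓne⟩ := hnonE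
  obtain ⟨hℓ, hℓN, hℓp⟩ := hS ℓ hSℓ
  have h1 : G.TR ⟨ℓ, hℓ⟩ (G.res (G.Ψ x)) = ((ℓ : ℕ) + 1 : ℤ) • G.res (G.Ψ x) :=
    G.eis ⟨ℓ, hℓ⟩ hℓN hℓp _ hres
  have h2 : G.TR ⟨ℓ, hℓ⟩ (G.res (G.Ψ x)) = (a ℓ) • G.res (G.Ψ x) := by
    rw [← G.res_hecke ⟨ℓ, hℓ⟩ hℓN x hxT, heigΩ ℓ hℓ hSℓ, map_zsmul]
  have h3 : (a ℓ - (ℓ + 1)) • G.res (G.Ψ x) = 0 := by
    rw [sub_smul, ← h2, h1]
    exact sub_self _
  have hcop : IsCoprime (a ℓ - (ℓ + 1)) (p : ℤ) :=
    ((Nat.prime_iff_prime_int.mp hp).coprime_iff_not_dvd.2 hℓne).symm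
  obtain ⟨u, v, huv⟩ := hcop
  have : G.res (G.Ψ x) = (u * (a ℓ - (ℓ + 1)) + v * (p : ℤ)) • G.res (G.Ψ x) := by
    rw [huv, one_smul]
  rw [this, add_smul, mul_smul, mul_smul, h3, G.p_smul_R, smul_zero, smul_zero, add_zero]

/-- **the abelian alternative**: if `r ≢ 1 (p)` the Frey module inside `J₀(N)[p]` is not toric, and its
classes have no node orders. -/
theorem exists_abelian_of_core (P : FreyPackage) (G : TameCore N r P.p A) (hr : r.Prime)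
    (hrp : r ≠ P.p) (hA : A.LiesOverPrime r)
    (hirr : GaloisRepIsIrreducible (K := Qb) ℚ P.freyCurve P.p)
    (hunr : P.GaloisRepUnramifiedAt r) (hr1 : ¬ r ≡ 1 [MOD P.p]) (hdet : DetFrobStmt)
    (V : AddSubgroup (JZero N)) (e : FreyTors P ≃+ V) (hVt : V ≤ tors N (P.p : ℤ))
    (he : ∀ (σ : GQ) (x : FreyTors P), ((e (σ • x) : V) : JZero N) = σ • ((e x : V) : JZero N))
    (a : ℕ → ℤ) (S : ℕ → Prop) (hS : ∀ ℓ, S ℓ → ℓ.Prime ∧ ¬ ℓ ∣ N ∧ ℓ ≠ P.p)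
    (hVeig : ∀ (ℓ : ℕ) (hℓ : ℓ.Prime), S ℓ → ∀ x ∈ V, heckeOperatorBar N ⟨ℓ, hℓ⟩ x = (a ℓ) • x)
    (hnonE : ∃ ℓ, S ℓ ∧ ¬ (P.p : ℤ) ∣ a ℓ - (ℓ + 1)) :
    ∃ x ∈ V, G.Ψ x ≠ 0 ∧ G.res (G.Ψ x) = 0 := by
  have hp : P.p.Prime := P.pp
  -- transport of the Galois structure to `V`
  have hsmulV : ∀ (σ : GQ) (x : JZero N), x ∈ V → σ • x ∈ V := by
    intro σ x hx
    have := he σ (e.symm ⟨x, hx⟩)
    rw [AddEquiv.apply_symm_apply] at this
    rw [← this]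
    exact (e _).2
  have hIfix : ∀ σ ∈ IA A, ∀ x ∈ V, σ • x = x := by
    intro σ hσ x hx
    obtain ⟨y, rfl⟩ : ∃ y, ((e y : V) : JZero N) = x := ⟨e.symm ⟨x, hx⟩, by simp⟩
    have hy : σ • y = y := hunr A hA σ hσ y
    rw [← he σ y, hy]
  have hres : ∀ x ∈ V, G.res (G.Ψ x) = 0 := fun x hx =>
    core_res_eq_zero G hp (hVt hx) (fun σ hσ => hIfix σ hσ x hx) a S hS
      (fun ℓ hℓ hSℓ => hVeig ℓ hℓ hSℓ x hx) hnonE
  by_contra hcon
  have hΨ : ∀ x ∈ V, G.Ψ x = 0 := by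
    intro x hx
    by_contra h0
    exact hcon ⟨x, hx, h0, hres x hx⟩
  -- the toric part: every Frobenius element at `A` acts through a scalar `c` with `c² ≡ r² (p)`
  have hVK : ∀ x ∈ V, x ∈ G.K := fun x hx => (G.mem_K x (hVt hx)).2 (hΨ x hx)
  have hcop : IsCoprime (r : ℤ) (P.p : ℤ) := by
    have : Nat.Coprime r P.p := (Nat.coprime_primes hr hp).2 hrp
    exact_mod_cast Nat.isCoprime_iff_coprime.2 this
  obtain ⟨φ₀, hφ₀⟩ : ∃ φ : GQ, A.IsFrobeniusAt φ r := by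
    obtain ⟨B, σ, hB, hσ⟩ := Fermat.Agent.Helper5.exists_isFrobeniusAt r hr
    obtain ⟨g, hg⟩ := Fermat.Agent.S56lib.TWSel.exists_smul_eq_of_liesOverPrime hr hB hA
    refine ⟨g * σ * g⁻¹, ?_⟩
    rw [hg]
    exact Fermat.Agent.S56lib.TWSel.isFrobeniusAt_conj hσ
  -- `w` preserves `V`
  have hwT : ∀ x ∈ tors N (P.p : ℤ), G.w x ∈ tors N (P.p : ℤ) := by
    intro x hx
    have hx' : (P.p : ℤ) • x = 0 := (Submodule.mem_torsionBy_iff _ _).1 hx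
    show G.w x ∈ Submodule.torsionBy ℤ (JZero N) (P.p : ℤ)
    rw [Submodule.mem_torsionBy_iff, ← map_zsmul, hx', _root_.map_zero]
  have hwV : ∀ x ∈ V, G.w x ∈ V := by
    intro x hx
    have h1 : φ₀ • x = -((r : ℤ) • G.w x) := G.frobK φ₀ hφ₀ x (hVK x hx)
    have h2 : (r : ℤ) • G.w x ∈ V := by
      have : (r : ℤ) • G.w x = -(φ₀ • x) := by rw [h1, neg_neg]
      rw [this]
      exact V.neg_mem (hsmulV φ₀ x hx)
    obtain ⟨u, v, huv⟩ := hcop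
    have h3 : (P.p : ℤ) • G.w x = 0 := (Submodule.mem_torsionBy_iff _ _).1 (hwT x (hVt hx))
    have : G.w x = u • ((r : ℤ) • G.w x) := by
      have h4 : G.w x = (u * (r : ℤ) + v * (P.p : ℤ)) • G.w x := by rw [huv, one_smul]
      rw [add_zsmul, mul_zsmul, mul_zsmul, h3, zsmul_zero, add_zero] at h4
      exact h4
    rw [this]
    exact V.zsmul_mem h2 u
  -- the involution of `E[p]`
  let wV : V →+ V :=
    { toFun := fun x => ⟨G.w (x : JZero N), hwV x x.2⟩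
      map_zero' := Subtype.ext (_root_.map_zero G.w)
      map_add' := fun x y => Subtype.ext (map_add G.w (x : JZero N) (y : JZero N)) }
  let u : FreyTors P →+ FreyTors P :=
    (e.symm.toAddMonoidHom.comp wV).comp e.toAddMonoidHom
  have hu_apply : ∀ y : FreyTors P, ((e (u y) : V) : JZero N) = G.w ((e y : V) : JZero N) := by
    intro y
    show ((e (e.symm (wV (e y))) : V) : JZero N) = _
    rw [AddEquiv.apply_symm_apply]
    rfl
  have hinj : ∀ y y' : FreyTors P, ((e y : V) : JZero N) = ((e y' : V) : JZero N) → y = y' :=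
    fun y y' h => e.injective (Subtype.ext h)
  have he_zsmul : ∀ (c : ℤ) (y : FreyTors P),
      ((e (c • y) : V) : JZero N) = c • ((e y : V) : JZero N) := by
    intro c y
    have h : e (c • y) = c • e y := map_zsmul e c y
    rw [h]
    rfl
  have hu_gal : ∀ (σ : GQ) (y : FreyTors P), u (σ • y) = σ • u y := by
    intro σ y
    apply hinj
    rw [hu_apply, he, G.w_galois, he, hu_apply]
  have hu_inv : ∀ y, u (u y) = y := by
    intro y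
    apply hinj
    rw [hu_apply, hu_apply, G.w_invol]
  -- every Frobenius element at `A` acts through a scalar
  have hscalar : ∀ φ : GQ, A.IsFrobeniusAt φ r → ∃ c : ℤ, (∀ y : FreyTors P, φ • y = c • y) ∧
      (P.p : ℤ) ∣ c ^ 2 - (r : ℤ) ^ 2 := by
    intro φ hφ
    rcases eq_or_eq_neg_of_involution P hirr u hu_gal hu_inv with hε | hε
    · refine ⟨-(r : ℤ), fun y => ?_, by simp⟩
      apply hinj
      rw [he, G.frobK φ hφ _ (hVK _ (e y).2), ← hu_apply, hε, he_zsmul, neg_zsmul]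
    · refine ⟨(r : ℤ), fun y => ?_, by simp⟩
      apply hinj
      rw [he, G.frobK φ hφ _ (hVK _ (e y).2), ← hu_apply, hε, map_neg, AddSubgroup.coe_neg,
        zsmul_neg, neg_neg, he_zsmul]
  -- `r ≢ 1 (p)`: the determinant
  obtain ⟨c, hc, hc2⟩ := hscalar φ₀ hφ₀
  have h3 := hdet P r A hr hrp hA φ₀ hφ₀ c hc
  have h4 : (P.p : ℤ) ∣ (r : ℤ) * ((r : ℤ) - 1) := by
    have : (r : ℤ) * ((r : ℤ) - 1) = (c ^ 2 - (r : ℤ)) - (c ^ 2 - (r : ℤ) ^ 2) := by ring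
    rw [this]
    exact dvd_sub h3 hc2
  have hpp : Prime (P.p : ℤ) := Nat.prime_iff_prime_int.mp hp
  rcases hpp.dvd_or_dvd h4 with h | h
  · have : P.p ∣ r := by exact_mod_cast h
    exact hrp ((Nat.prime_dvd_prime_iff_eq hp hr).1 this).symm
  · apply hr1
    have h6 : (1 : ℤ) ≡ (r : ℤ) [ZMOD (P.p : ℤ)] := (Int.modEq_iff_dvd).2 (by simpa using h)
    exact (Int.natCast_modEq_iff.1 (by simpa using h6.symm))

end Fermat.Agent.S43lib.B0.Three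

end
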