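/-
S43lib / B0 / Three / OrdNorm  (helper8)  — Project H, block B0, the prime `r = 3`.

**Divisibility of orders descends along a covering of degree prime to `p`.**

`ψ : F → F'` a finite embedding of function fields over `K` with the norm formula
(`ψ_* div h = div N_ψ h`), `p` a prime not dividing `[F' : F]`, `φ ∈ Fˣ`.  If all orders of `ψ φ` are
divisible by `p`, so are all orders of `φ`   (`N_ψ (ψ φ) = φ ^ [F' : F]`).

* `dvd_ord_of_dvd_ord_map`; the class form `ordHom_eq_zero_of_map` for `Kap.Om`.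
-/
import Fermat.Agent.S29lib.D.KummerCorr
import Fermat.Agent.S18lib.Setup.DivLemmas
import Fermat.Agent.S44lib.Kap.Om

set_option autoImplicit false
set_option linter.unusedSectionVars false
set_option linter.style.haveILetI false

noncomputable section

namespace Fermat.Agent.S43lib.B0.Three

open AlgebraicCurve Fermat.Agent.S18lib Fermat.Agent.S29lib.D Fermat.Agent.S44lib.Kap

section Generic

variable {K F F' : Type*} [Field K] [Field F] [Field F'] [Algebra K F] [Algebra K F']

/-- a function all of whose orders are divisible by `m` has divisor `m • E` -/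
theorem exists_smul_eq_divOf [HasPrincipalDivisors K F] {m : ℕ} (hm : m ≠ 0) {φ : F}
    (hdvd : ∀ Q : Place K F, (m : ℤ) ∣ Q.ord φ) :
    ∃ E : Divisor K F, (m : ℤ) • E = divOf (K := K) φ := by
  classical
  choose e he using hdvd
  have hm' : (m : ℤ) ≠ 0 := by exact_mod_cast hm
  refine ⟨Finsupp.onFinset (divOf (K := K) φ).support e (fun Q hQ => by
    rw [Finsupp.mem_support_iff, divOf_apply', he Q]
    exact mul_ne_zero hm' hQ), ?_⟩
  ext Q
  rw [Finsupp.smul_apply, Finsupp.onFinset_apply, divOf_apply', he Q, smul_eq_mul]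

/-- the norm along `ψ` of an element of the base field -/
theorem normAlong_apply_self (ψ : F →ₐ[K] F') (φ : F) :
    normAlong ψ (ψ φ) = φ ^ finrankAlong K ψ := by
  letI := algebraAlong ψ
  exact Algebra.norm_algebraMap φ

variable [HasPrincipalDivisors K F']

/-- **divisibility of the orders descends along `ψ`** -/
theorem dvd_ord_of_dvd_ord_map (ψ : F →ₐ[K] F') (hψ : ψ.toRingHom.IsIntegral)
    (hfin : FiniteAlong K ψ) (hN : NormFormulaAlong K ψ hfin) {p : ℕ} (hp : p.Prime)
    (hpd : ¬ p ∣ finrankAlong K ψ) {φ : F} (hφ : φ ≠ 0)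
    (hdvd : ∀ w : Place K F', (p : ℤ) ∣ w.ord (ψ φ)) (v : Place K F) : (p : ℤ) ∣ v.ord φ := by
  obtain ⟨E, hE⟩ := exists_smul_eq_divOf (K := K) hp.ne_zero hdvd
  have hψφ : ψ φ ≠ 0 := (map_ne_zero ψ).2 hφ
  have h1 := pushforwardAlong_apply_eq_ord ψ hψ hfin hN hψφ
    (E := divOf (K := K) (ψ φ)) (fun w => divOf_apply' (ψ φ) w) v
  rw [normAlong_apply_self, ← hE, map_zsmul, Finsupp.smul_apply, smul_eq_mul, ← zpow_natCast,
    v.ord_zpow] at h1
  have hcop : IsCoprime (p : ℤ) ((finrankAlong K ψ : ℕ) : ℤ) := by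
    have : Nat.Coprime p (finrankAlong K ψ) := (Nat.Prime.coprime_iff_not_dvd hp).2 hpd
    exact_mod_cast Nat.isCoprime_iff_coprime.2 this
  exact hcop.dvd_of_dvd_mul_left ⟨_, h1.symm⟩

end Generic

section Classes

variable {L : Type*} [Field L] {A : ValuationSubring L}
variable {Fk Fk' : Type*} [Field Fk] [Field Fk']
variable [Algebra (IsLocalRing.ResidueField A) Fk] [Algebra (IsLocalRing.ResidueField A) Fk']
variable [HasPrincipalDivisors (IsLocalRing.ResidueField A) Fk']

local notation "k" => IsLocalRing.ResidueField A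

/-- **a class whose pull-back has all orders `≡ 0 (p)` has all orders `≡ 0 (p)`** -/
theorem ordHom_eq_zero_of_map (ψ : Fk →ₐ[k] Fk') (hψ : ψ.toRingHom.IsIntegral)
    (hfin : FiniteAlong k ψ) (hN : NormFormulaAlong k ψ hfin) {p : ℕ} (hp : p.Prime)
    (hpd : ¬ p ∣ finrankAlong k ψ) (ω : Om A Fk p)
    (h : ∀ w : Place k Fk', Om.ordHom w (Om.map ψ ω) = 0) (v : Place k Fk) :
    Om.ordHom v ω = 0 := by
  obtain ⟨φ, hφ, rfl⟩ := Om.exists_rep ω
  rw [Om.ordHom_mk]
  refine (ZMod.intCast_zmod_eq_zero_iff_dvd _ p).2 ?_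
  refine dvd_ord_of_dvd_ord_map ψ hψ hfin hN hp hpd hφ (fun w => ?_) v
  have := h w
  rw [Om.map_mk, Om.ordHom_mk] at this
  exact (ZMod.intCast_zmod_eq_zero_iff_dvd _ p).1 this

end Classes

end Fermat.Agent.S43lib.B0.Three

end
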