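/-
S43lib / B0 / Three / Pull  (helper8)  — Project H, block B0, the prime `r = 3`.

**The pull-back `J₀(N) → J₀(N')` along the inclusion `FBar N ⊆ FBar N'`, `N ∣ N'`.**

* `pullJ h : JZero N →+ JZero N'`, Galois equivariant (`pullJ_smul`);
* `pullJ_injOn_torsion` : injective on the `p`-torsion if `p ∤ ψ(N') / ψ(N)` (`π_* π^* = deg π`);
* `kapCl_pullJ` : the reduction Kummer class of a pulled back class along compatible Gauss data is the
  pull-back of the reduction Kummer class (`Kap.GaussCompat`).
-/
import Fermat.Agent.LSb.Xfer.PushPull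
import Fermat.Agent.S29lib.GH.HeckeGalois
import Fermat.Agent.S37lib.HeckeInst.Final
import Fermat.Agent.S18lib.V.GaussU.LevelFin
import Fermat.Agent.S44lib.Kap.Hecke

set_option autoImplicit false
set_option linter.unusedSectionVars false
set_option linter.style.haveILetI false

noncomputable section

namespace Fermat.Agent.S43lib.B0.Three

open AlgebraicCurve ModularCurve AlgebraicCurve.SemilinearAut
open Fermat.Agent.S18lib Fermat.Agent.S18lib.V Fermat.Agent.S37lib Fermat.Agent.S37lib.HeckeInst
open Fermat.Agent.LSb.Xfer Fermat.Agent.S29lib Fermat.Agent.S29lib.GH Fermat.Agent.S29lib.D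
open Fermat.Agent.S44lib.Kap Fermat.Agent.LSb

local notation "Qb" => AlgebraicClosure ℚ
local notation "GQ" => (AlgebraicClosure ℚ ≃ₐ[ℚ] AlgebraicClosure ℚ)

variable {N N' : ℕ} [NeZero N] [NeZero N'] (h : N ∣ N')

/-! ### the inclusion `FBar N ⊆ FBar N'` -/

theorem inclL_jB : inclL h (jB N) = jB N' := inclL_jBar h

theorem finite_inclL : letI := algebraAlong (inclL h); Module.Finite (FB N) (FB N') :=
  finite_along (inclL h) (jB N) (jB N') (inclL_jB h)

theorem inclL_integral : (inclL h).toRingHom.IsIntegral :=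
  isIntegral_toRingHom_of_finite _ (finite_inclL h)

theorem finiteAlong_inclL : FiniteAlong Qb (inclL h) := finite_inclL h

theorem isSeparable_inclL :
    letI := algebraAlong (inclL h); Algebra.IsSeparable (FB N) (FB N') :=
  isSeparable_along _ (finite_inclL h)

theorem fundamentalIdentityAlong_inclL :
    haveI := hasPrincipalDivisors_FB N';
    FundamentalIdentityAlong Qb (inclL h) (inclL_integral h) := by
  haveI := hasPrincipalDivisors_FB N'
  letI := algebraAlong (inclL h)
  haveI := isScalarTower_along (inclL h)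
  haveI : FiniteDimensional (FB N) (FB N') := finite_inclL h
  haveI : Algebra.IsSeparable (FB N) (FB N') := isSeparable_inclL h
  exact Tower.fundamentalIdentity (deg_eq_one N')

theorem normFormulaAlong_inclL :
    haveI := hasPrincipalDivisors_FB N';
    NormFormulaAlong Qb (inclL h) (finiteAlong_inclL h) := by
  haveI := hasPrincipalDivisors_FB N'
  letI := algebraAlong (inclL h)
  haveI := isScalarTower_along (inclL h)
  haveI : FiniteDimensional (FB N) (FB N') := finite_inclL h
  haveI : Algebra.IsSeparable (FB N) (FB N') := isSeparable_inclL h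
  exact Tower.pushforwardNormFormula (deg_eq_one N')

/-- the inclusion commutes with the coefficientwise Galois action -/
theorem intertwines_inclL (σ : GQ) :
    IntertwinesAlong (inclL h).toRingHom (galAutBar N σ) (galAutBar N' σ) := by
  intro x
  apply Subtype.ext
  show ((galAutBar N' σ • (inclL h x) : modularFunctionFieldBar N') : LaurentSeries Qb) =
    ((inclL h (galAutBar N σ • x) : modularFunctionFieldBar N') : LaurentSeries Qb)
  rw [coe_inclL, coe_arithmeticGalois_smul, coe_arithmeticGalois_smul, coe_inclL]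

/-! ### the pull-back -/

/-- **the pull-back `π^* : J₀(N) → J₀(N')`** -/
def pullJ : JZero N →+ JZero N' :=
  haveI := hasPrincipalDivisors_FB N'
  pic0PullbackAlong (inclL h) (inclL_integral h) (fundamentalIdentityAlong_inclL h)

/-- the pull-back is Galois equivariant -/
theorem pullJ_smul (σ : GQ) (x : JZero N) : pullJ h (σ • x) = σ • pullJ h x := by
  haveI := hasPrincipalDivisors_FB N'
  exact pic0PullbackAlong_smul (inclL h) (inclL_integral h) (fundamentalIdentityAlong_inclL h)
    (intertwines_inclL h σ) x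

/-- the kernel of the pull-back is killed by the degree -/
theorem finrank_smul_eq_zero_of_pullJ_eq_zero {x : JZero N} (hx : pullJ h x = 0) :
    (finrankAlong Qb (inclL h) : ℤ) • x = 0 := by
  haveI := hasPrincipalDivisors_FB N'
  exact finrankAlong_smul_eq_zero_of_pullback_eq_zero (inclL h) (inclL_integral h)
    (fundamentalIdentityAlong_inclL h) (finiteAlong_inclL h) (normFormulaAlong_inclL h)
    (deg_ne_zero_FB N) hx

/-- `ψ(N) · deg = ψ(N')` -/
theorem dedekindPsi_mul_finrankAlong :
    dedekindPsi N * finrankAlong Qb (inclL h) = dedekindPsi N' :=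
  dedekindPsi_mul_finrank_inclL h

/-- **the pull-back is injective on the `p`-torsion** if `p` does not divide the degree -/
theorem pullJ_eq_zero_imp {p : ℕ} (hp : p.Prime) (hpd : ¬ p ∣ finrankAlong Qb (inclL h))
    {x : JZero N} (hpx : (p : ℤ) • x = 0) (hx : pullJ h x = 0) : x = 0 := by
  have h1 := finrank_smul_eq_zero_of_pullJ_eq_zero h hx
  have hcop : IsCoprime (p : ℤ) (finrankAlong Qb (inclL h) : ℤ) := by
    have : Nat.Coprime p (finrankAlong Qb (inclL h)) := (Nat.Prime.coprime_iff_not_dvd hp).2 hpd
    exact_mod_cast Nat.isCoprime_iff_coprime.2 this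
  obtain ⟨u, v, huv⟩ := hcop
  have h2 : x = (u * (p : ℤ) + v * (finrankAlong Qb (inclL h) : ℤ)) • x := by rw [huv, one_zsmul]
  rw [add_zsmul, mul_zsmul, mul_zsmul, hpx, h1, zsmul_zero, zsmul_zero, add_zero] at h2
  exact h2

/-! ### reduction Kummer classes of pulled back classes -/

section Kap

variable {A : ValuationSubring Qb}
variable {Fk : Type*} [Field Fk] [Algebra (IsLocalRing.ResidueField A) Fk]
variable {Fk' : Type*} [Field Fk'] [Algebra (IsLocalRing.ResidueField A) Fk']

/-- Kummer representatives under the pull-back -/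
theorem kummerRel_pullJ {m : ℕ} {x : JZero N} {f : FBar N} (hrel : KummerRel m x f) :
    KummerRel m (pullJ h x) (inclL h f) := by
  haveI := hasPrincipalDivisors_FB N'
  obtain ⟨hf, D, rfl, hD⟩ := hrel
  refine ⟨(map_ne_zero (inclL h)).2 hf,
    ⟨Divisor.pullbackAlong (inclL h) (inclL_integral h) (D : Divisor Qb (FBar N)),
      Divisor.pullbackAlong_mem_degZero (inclL h) (inclL_integral h)
        (fundamentalIdentityAlong_inclL h) D.2⟩, rfl, fun P => ?_⟩
  have h1 : ∀ v : Place Qb (FBar N), ((m : ℤ) • (D : Divisor Qb (FBar N))) v = v.ord f := fun v => by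
    rw [Finsupp.smul_apply, smul_eq_mul, hD v]
  have h2 := pullbackAlong_apply_eq_ord (inclL h) (inclL_integral h) h1 P
  rw [map_zsmul, Finsupp.smul_apply, smul_eq_mul] at h2
  exact h2

/-- **the reduction Kummer class of a pulled back class** -/
theorem kapCl_pullJ {g' : ℕ} (hF' : IsCurveOfGenus Qb (FBar N') g') {g : ℕ}
    (hF : IsCurveOfGenus Qb (FBar N) g)
    {G : GaussDatum A (FBar N) Fk} {G' : GaussDatum A (FBar N') Fk'}
    {φb : Fk →ₐ[IsLocalRing.ResidueField A] Fk'} (hG : GaussCompat G G' (inclL h) φb)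
    {m : ℕ} {x : JZero N} (hx : (m : ℤ) • x = 0) :
    kapCl G' m (pullJ h x) = Om.map φb (kapCl G m x) := by
  obtain ⟨f, hrel, hred⟩ := exists_kummerRel G hx
  have hne : G.redF f ≠ 0 := by rw [hred]; exact kapFun_ne_zero _ _ _
  have hfO : f ∈ G.O := G.mem_of_redF_ne_zero hne
  have hne' : G'.redF (inclL h f) ≠ 0 := by
    rw [hG.red f hfO]
    exact (map_ne_zero φb).2 hne
  rw [kapCl_of_kummerRel hF' G' (kummerRel_pullJ h hrel) hne', kapCl_of_kummerRel hF G hrel hne,
    Om.map_mk]
  exact Om.mk_congr hne' (hG.red f hfO)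

end Kap

end Fermat.Agent.S43lib.B0.Three

end
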