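/-
S43lib / B0 / Three / Main  (helper8)  — Project H, block B0: **MAZUR'S PRINCIPLE AT `r = 3`**.

`N = M · 3` (`3 ∤ M`, squarefree conductor level), `ρ̄ = E[p]` irreducible, modular of level `N`, unramified
at `3`  ⟹  `ρ̄` modular of level `M`.      (`3 ≢ 1 (p)` is automatic, `p ≥ 5`.)

The nodal model of `X₀(M · 3)` at `3` needs a rigidifying level (`GoodPair`: `4 ∣ M`), so we pass to the
auxiliary level `N' = (M · 4) · 3`:

* `V ≅ E[p]` inside `J₀(N)[p]` (Q1);   `V' = π^* V ⊆ J₀(N')[p]`, `π^* = pullJ` Galois equivariant and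
  injective on the `p`-torsion (degree `4` or `6`);
* `T'_ℓ = a_ℓ` on `V'` (`EigenES`: Eichler–Shimura at level `N'` and the characteristic polynomial of
  Frobenius on `E[p]`);
* the toric/abelian dichotomy at level `N'` (`Core.exists_abelian_of_core` for helper6's `tameCoreThree`):
  some `x' = π^* x₀ ∈ V'` has `Ψ' x' ≠ 0` and no node orders, hence all orders of both components of `Ψ' x'`
  are `≡ 0 (p)`;
* `Ψ' (π^* x₀) = ῑ (Ψ x₀)`, `Ψ = (kapCl gaussOne, kapCl gaussTwo)` at level `N` (`Pull.kapCl_pullJ`,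
  `Compat.gaussCompat_one/two`), so a component `ω` of `Ψ x₀` is non-zero with all orders `≡ 0 (p)`
  (`OrdNorm.ordHom_eq_zero_of_map`), and `T̄_ℓ ω = a_ℓ ω` by `Ψ_hecke` at level `N`;
* `Lift.exists_eigen_torsion_of_om` at level `M`, then `TorsEigenStmt`.
-/
import Fermat.Agent.S43lib.B0.Three.Core
import Fermat.Agent.S43lib.B0.Three.Pull
import Fermat.Agent.S43lib.B0.Three.Compat
import Fermat.Agent.S43lib.B0.Three.OrdNorm
import Fermat.Agent.S43lib.B0.Three.EigenES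
import Fermat.Agent.S43lib.B0.Lift.Old
import Fermat.Agent.S43lib.B0.Arith
import Fermat.Agent.S44lib.Q1.NonEis
import Fermat.Agent.S43lib.B0.Pkg.MazurLarge

set_option autoImplicit false
set_option linter.unusedSectionVars false
set_option linter.style.haveILetI false

noncomputable section

namespace Fermat.Agent.S43lib.B0.Three

open AlgebraicCurve ModularCurve
open Fermat.Agent.S18lib Fermat.Agent.S18lib.V Fermat.Agent.S37lib Fermat.Agent.S19lib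
open Fermat.Agent.S44lib Fermat.Agent.S44lib.Kap Fermat.Agent.S33lib
open Fermat.Agent.LSb Fermat.Agent.LSb.Unit Fermat.Agent.ProgramR
open WeierstrassCurve WeierstrassCurve.Affine WeierstrassCurve.Affine.Point

local notation "Qb" => AlgebraicClosure ℚ
local notation "GQ" => (AlgebraicClosure ℚ ≃ₐ[ℚ] AlgebraicClosure ℚ)
local notation "Zbar" => integralClosure ℤ ℂ

/-! ### the degree of the auxiliary covering -/

/-- `ψ(4K) = 4 ψ(K)` or `6 ψ(K)` -/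
theorem dedekindPsi_mul_four (K : ℕ) (hK : K ≠ 0) :
    dedekindPsi (K * 4) = dedekindPsi K * 4 ∨ dedekindPsi (K * 4) = dedekindPsi K * 6 := by
  have e : K * 4 = K * 2 * 2 := by ring
  have h1 : dedekindPsi (K * 2 * 2) = dedekindPsi (K * 2) * 2 :=
    Fermat.Agent.S28lib.Chain.dedekindPsi_mul_prime_of_dvd (mul_ne_zero hK two_ne_zero)
      Nat.prime_two (Dvd.intro_left K rfl)
  rw [e, h1]
  by_cases h2 : 2 ∣ K
  · left
    rw [Fermat.Agent.S28lib.Chain.dedekindPsi_mul_prime_of_dvd hK Nat.prime_two h2]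
    ring
  · right
    rw [Fermat.Agent.S28lib.Chain.dedekindPsi_mul_prime_of_not_dvd hK Nat.prime_two h2]
    ring

/-- a prime `p ≥ 5` does not divide the degree `ψ(4K)/ψ(K)` -/
theorem not_dvd_of_dedekindPsi_mul_eq {K d p : ℕ} (hK : K ≠ 0) (hp : p.Prime) (hp5 : 5 ≤ p)
    (hd : dedekindPsi K * d = dedekindPsi (K * 4)) : ¬ p ∣ d := by
  haveI : NeZero K := ⟨hK⟩
  have hpos : 0 < dedekindPsi K := Fermat.Agent.ProgramR.BarField.dedekindPsi_pos K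
  have hd46 : d = 4 ∨ d = 6 := by
    rcases dedekindPsi_mul_four K hK with h | h
    · left
      exact Nat.eq_of_mul_eq_mul_left hpos (hd.trans h)
    · right
      exact Nat.eq_of_mul_eq_mul_left hpos (hd.trans h)
  intro hpd
  rcases hd46 with rfl | rfl
  · have : p ∣ 2 ^ 2 := by norm_num; exact hpd
    have := (Nat.prime_dvd_prime_iff_eq hp Nat.prime_two).1 (hp.dvd_of_dvd_pow this)
    omega
  · have : p ∣ 2 * 3 := by norm_num; exact hpd
    rcases (Nat.Prime.dvd_mul hp).1 this with h | h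
    · have := (Nat.prime_dvd_prime_iff_eq hp Nat.prime_two).1 h
      omega
    · have := (Nat.prime_dvd_prime_iff_eq hp Nat.prime_three).1 h
      omega

/-! ### the auxiliary level -/

section Aux

variable {M : ℕ} [NeZero M] {A : ValuationSubring Qb}

theorem three_not_dvd_mul_four (h3M : ¬ 3 ∣ M) : ¬ 3 ∣ M * 4 := by
  intro h
  rcases (Nat.Prime.dvd_mul Nat.prime_three).1 h with h | h
  · exact h3M h
  · omega

/-- the inclusion of levels `M · 3 ∣ (M · 4) · 3` -/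
theorem lvl_dvd (M : ℕ) : M * 3 ∣ M * 4 * 3 := Nat.mul_dvd_mul_right (Dvd.intro 4 rfl) 3

/-- `p ∤ [FBar (M · 4 · 3) : FBar (M · 3)]` -/
theorem not_dvd_finrankAlong_inclL {p : ℕ} (hp : p.Prime) (hp5 : 5 ≤ p) :
    ¬ p ∣ finrankAlong Qb (inclL (lvl_dvd M)) := by
  have h1 := dedekindPsi_mul_finrankAlong (lvl_dvd M)
  have e : dedekindPsi (M * 4 * 3) = dedekindPsi (M * 3 * 4) := by
    congr 1
    ring
  exact not_dvd_of_dedekindPsi_mul_eq (NeZero.ne (M * 3)) hp hp5 (h1.trans e)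

/-- `p ∤ [FRes A (M · 4) : FRes A M]` -/
theorem not_dvd_finrankAlong_inclK (h3M : ¬ 3 ∣ M) (hA : A.LiesOverPrime 3) {p : ℕ} (hp : p.Prime)
    (hp5 : 5 ≤ p) :
    ¬ p ∣ finrankAlong (IsLocalRing.ResidueField A) (inclK A (Dvd.intro 4 rfl : M ∣ M * 4)) := by
  have h1 := dedekindPsi_mul_finrank_inclK (N := M) (N' := M * 4) A (Dvd.intro 4 rfl)
    (three_not_dvd_mul_four h3M) hA
  exact not_dvd_of_dedekindPsi_mul_eq (NeZero.ne M) hp hp5 h1

/-- `3 ≢ 1 (p)` for `p ≥ 5` -/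
theorem three_not_modEq_one {p : ℕ} (hp5 : 5 ≤ p) : ¬ 3 ≡ 1 [MOD p] := by
  intro h
  have h' : 3 % p = 1 % p := h
  rw [Nat.mod_eq_of_lt (by omega), Nat.mod_eq_of_lt (by omega)] at h'
  omega

/-- **the abelian alternative at the auxiliary level**: for the Frey module `V ⊆ J₀(M · 3)[p]`, some
`x₀ ∈ V` has `Ψ' (π^* x₀) ≠ 0` and `res' (Ψ' (π^* x₀)) = 0` at the level `(M · 4) · 3`. -/
theorem exists_abelian_aux (P : FreyPackage) [hpf : Fact P.p.Prime] (h3M : ¬ 3 ∣ M)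
    (hA : A.LiesOverPrime 3)
    (hirr : GaloisRepIsIrreducible (K := Qb) ℚ P.freyCurve P.p)
    (hunr : P.GaloisRepUnramifiedAt 3)
    (W : WeierstrassCurve ℤ) (hW : W.IsIntegralModelOf P.freyCurve)
    (V : AddSubgroup (JZero (M * 3))) (e : FreyTors P ≃+ V) (hVt : V ≤ tors (M * 3) (P.p : ℤ))
    (he : ∀ (σ : GQ) (x : FreyTors P),
      ((e (σ • x) : V) : JZero (M * 3)) = σ • ((e x : V) : JZero (M * 3))) :
    ∃ x₀ ∈ V, tPsi (three_not_dvd_mul_four h3M) hA P.p (pullJ (lvl_dvd M) x₀) ≠ 0 ∧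
      tRes (three_not_dvd_mul_four h3M) hA P.p
        (tPsi (three_not_dvd_mul_four h3M) hA P.p (pullJ (lvl_dvd M) x₀)) = 0 := by
  classical
  have hp : P.p.Prime := P.pp
  have hp5 : 5 ≤ P.p := P.hp5
  obtain ⟨hΔ, d, hd, -⟩ := Fermat.Agent.S44lib.Q1.exists_freyCoord P W hW hirr
  -- the embedding `E[p] → J₀(N')`
  let ι : FreyTors P →+ JZero (M * 4 * 3) :=
    (pullJ (lvl_dvd M)).comp (V.subtype.comp e.toAddMonoidHom)
  have hιx : ∀ y, ι y = pullJ (lvl_dvd M) ((e y : V) : JZero (M * 3)) := fun _ => rfl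
  have hpe : ∀ y : FreyTors P, (P.p : ℤ) • ((e y : V) : JZero (M * 3)) = 0 := fun y =>
    (Submodule.mem_torsionBy_iff _ _).1 (hVt (e y).2)
  have hιinj : Function.Injective ι := by
    rw [injective_iff_map_eq_zero]
    intro y hy
    rw [hιx] at hy
    have h0 : ((e y : V) : JZero (M * 3)) = 0 :=
      pullJ_eq_zero_imp (lvl_dvd M) hp (not_dvd_finrankAlong_inclL hp hp5) (hpe y) hy
    have h1 : e y = 0 := Subtype.ext h0
    exact (AddEquiv.map_eq_zero_iff e).1 h1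
  have hιgal : ∀ (σ : GQ) (y : FreyTors P), ι (σ • y) = σ • ι y := by
    intro σ y
    rw [hιx, hιx, he, pullJ_smul]
  have hιt : ∀ y, ι y ∈ tors (M * 4 * 3) (P.p : ℤ) := by
    intro y
    show ι y ∈ Submodule.torsionBy ℤ (JZero (M * 4 * 3)) (P.p : ℤ)
    rw [Submodule.mem_torsionBy_iff, hιx, ← map_zsmul, hpe y, _root_.map_zero]
  -- the tame core at the auxiliary level
  let G : TameCore (M * 4 * 3) 3 P.p A :=
    tameCoreThree (three_not_dvd_mul_four h3M) hA P.p rfl (Dvd.intro_left M rfl) hp5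
  have hS : ∀ ℓ, IsTestPrime W (M * 4 * 3) P.p ℓ → ℓ.Prime ∧ ¬ ℓ ∣ M * 4 * 3 ∧ ℓ ≠ P.p :=
    fun ℓ hℓ => ⟨hℓ.1, hℓ.2.2.1, hℓ.2.2.2⟩
  have hnonE := Fermat.Agent.S44lib.Q1.nonEisStmt P (M * 4 * 3) W
    (Nat.pos_of_ne_zero (NeZero.ne _)) hW hirr
  have h3p : (3 : ℕ) ≠ P.p := by omega
  obtain ⟨x', hx'V, hΨ, hres⟩ := exists_abelian_of_core P G Nat.prime_three h3p hA hirr hunr
    (three_not_modEq_one hp5) detFrobStmt ι.range (AddMonoidHom.ofInjective hιinj)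
    (by rintro _ ⟨y, rfl⟩; exact hιt y)
    (fun σ y => hιgal σ y) W.apOfModel (IsTestPrime W (M * 4 * 3) P.p) hS
    (by
      rintro ℓ hℓ htest _ ⟨y, rfl⟩
      exact hecke_eq_of_galois_equivariant P W hΔ d hd ι hιgal hιt hℓ htest y)
    hnonE
  obtain ⟨y, rfl⟩ := hx'V
  exact ⟨((e y : V) : JZero (M * 3)), (e y).2, hΨ, hres⟩

/-- a map additive on `J[p]` commutes with integer multiples on `J[p]` -/
theorem zsmul_of_add_on_tors {N : ℕ} [NeZero N] {p : ℕ} {Ω : Type*} [AddCommGroup Ω]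
    (Ψ : JZero N → Ω)
    (hadd : ∀ x ∈ tors N (p : ℤ), ∀ y ∈ tors N (p : ℤ), Ψ (x + y) = Ψ x + Ψ y)
    (m : ℤ) (y : JZero N) (hy : y ∈ tors N (p : ℤ)) : Ψ (m • y) = m • Ψ y := by
  have h0 : Ψ 0 = 0 := by
    have := hadd 0 (zero_mem _) 0 (zero_mem _)
    rw [add_zero] at this
    exact left_eq_add.mp this
  have hn : ∀ (n : ℕ), ∀ y ∈ tors N (p : ℤ), Ψ (n • y) = n • Ψ y := by
    intro n y hy
    induction n with
    | zero => simp [h0]
    | succ n ih =>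
      rw [succ_nsmul, succ_nsmul, hadd _ (nsmul_mem hy n) _ hy, ih]
  have hneg : ∀ y ∈ tors N (p : ℤ), Ψ (-y) = - Ψ y := by
    intro y hy
    have := hadd y hy (-y) (neg_mem hy)
    rw [add_neg_cancel, h0] at this
    exact (neg_eq_of_add_eq_zero_right this.symm).symm
  obtain ⟨n, rfl | rfl⟩ := m.eq_nat_or_neg
  · rw [natCast_zsmul, natCast_zsmul, hn n y hy]
  · rw [neg_smul, neg_smul, natCast_zsmul, natCast_zsmul, hneg _ (nsmul_mem hy n), hn n y hy]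

/-- **descent to the level `M`**: a class `x₀ ∈ J₀(M · 3)[p]`, Hecke-eigen, whose pull-back to the level
`(M · 4) · 3` has `Ψ' ≠ 0` and no node orders, produces a non-zero Hecke eigenclass in `J₀(M)[p]`. -/
theorem exists_eigen_torsion_three (h3M : ¬ 3 ∣ M) (hA : A.LiesOverPrime 3) (p : ℕ)
    [hpf : Fact p.Prime] (hp5 : 5 ≤ p)
    (x₀ : JZero (M * 3)) (hx₀ : x₀ ∈ tors (M * 3) (p : ℤ))
    (hΨ : tPsi (three_not_dvd_mul_four h3M) hA p (pullJ (lvl_dvd M) x₀) ≠ 0)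
    (hres : tRes (three_not_dvd_mul_four h3M) hA p
        (tPsi (three_not_dvd_mul_four h3M) hA p (pullJ (lvl_dvd M) x₀)) = 0)
    (a : ℕ → ℤ) (S : ℕ → Prop) (hS : ∀ ℓ, S ℓ → ℓ.Prime ∧ ¬ ℓ ∣ M * 3)
    (heig : ∀ (ℓ : ℕ) (hℓ : ℓ.Prime), S ℓ → heckeOperatorBar (M * 3) ⟨ℓ, hℓ⟩ x₀ = a ℓ • x₀) :
    ∃ t : JZero M, t ≠ 0 ∧ (p : ℤ) • t = 0 ∧
      ∀ (ℓ : ℕ) (hℓ : ℓ.Prime), S ℓ → heckeOperatorBar M ⟨ℓ, hℓ⟩ t = a ℓ • t := by
  have hp : p.Prime := hpf.out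
  have h3M' : ¬ 3 ∣ M * 4 := three_not_dvd_mul_four h3M
  have hM : M ∣ M * 4 := Dvd.intro 4 rfl
  have hx0 : (p : ℤ) • x₀ = 0 := smul_eq_zero_of_mem_tors' hx₀
  have hx0' : (p : ℤ) • pullJ (lvl_dvd M) x₀ = 0 := by rw [← map_zsmul, hx0, _root_.map_zero]
  have h3p : ¬ 3 ∣ p := by
    intro h
    have := (Nat.prime_dvd_prime_iff_eq Nat.prime_three hp).1 h
    omega
  haveI : HasPrincipalDivisors (IsLocalRing.ResidueField A) (FRes A M) := modHpdK h3M hA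
  haveI : HasPrincipalDivisors (IsLocalRing.ResidueField A) (FRes A (M * 4)) := modHpdK h3M' hA
  have C' : NodalCtx (modNod h3M' hA) (modG (M * 4) 3) (modGk h3M' hA) (modGk h3M' hA) :=
    Gen.modCtxG h3M' hA (Or.inr (Or.inr ⟨rfl, Dvd.intro_left M rfl⟩))
  -- all orders at the auxiliary level vanish
  have hord₁' : ∀ Q : Place (IsLocalRing.ResidueField A) (FRes A (M * 4)),
      Om.ordHom Q (tPsi h3M' hA p (pullJ (lvl_dvd M) x₀)).1 = 0 := by
    intro Q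
    by_cases hQ : ∃ c, Q = (modNod h3M' hA).x₁ c
    · obtain ⟨c, rfl⟩ := hQ
      have := congrArg (fun r => r.1 c) hres
      exact this
    · push Not at hQ
      exact ordHom_psi_eq_zero_of_ne₁ (Gen.modNRedC h3M' hA C') C' hx0' hQ
  have hord₂' : ∀ Q : Place (IsLocalRing.ResidueField A) (FRes A (M * 4)),
      Om.ordHom Q (tPsi h3M' hA p (pullJ (lvl_dvd M) x₀)).2 = 0 := by
    intro Q
    by_cases hQ : ∃ c, Q = (modNod h3M' hA).x₂ c
    · obtain ⟨c, rfl⟩ := hQ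
      have := congrArg (fun r => r.2 c) hres
      exact this
    · push Not at hQ
      exact ordHom_psi_eq_zero_of_ne₂ (Gen.modNRedC h3M' hA C') C' hx0' hQ
  -- compatibility with the pull-back
  have hc₁ : (tPsi h3M' hA p (pullJ (lvl_dvd M) x₀)).1 =
      Om.map (inclK A hM) (tPsi h3M hA p x₀).1 :=
    kapCl_pullJ (lvl_dvd M) (modG_spec (M * 4) 3) (modG_spec M 3)
      (gaussCompat_one A h3M h3M' hA hM) hx0
  have hc₂ : (tPsi h3M' hA p (pullJ (lvl_dvd M) x₀)).2 =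
      Om.map (inclK A hM) (tPsi h3M hA p x₀).2 :=
    kapCl_pullJ (lvl_dvd M) (modG_spec (M * 4) 3) (modG_spec M 3)
      (gaussCompat_two A h3M h3M' hA hM) hx0
  -- descent of the orders
  have hdeg : ∀ w : Place (IsLocalRing.ResidueField A) (FRes A (M * 4)), w.deg = 1 :=
    (modGk_spec h3M' hA).deg_eq_one
  have hdesc : ∀ ω : Om A (FRes A M) p,
      (∀ w : Place (IsLocalRing.ResidueField A) (FRes A (M * 4)),
        Om.ordHom w (Om.map (inclK A hM) ω) = 0) →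
      ∀ v : Place (IsLocalRing.ResidueField A) (FRes A M), Om.ordHom v ω = 0 := fun ω h v =>
    ordHom_eq_zero_of_map (inclK A hM) (Q4.alphaK_integral A M 4) (Q4.finiteAlong_alphaK A M 4)
      (Q4.normFormulaAlong_alphaK A M 4 hA h3M' hdeg) hp
      (not_dvd_finrankAlong_inclK h3M hA hp hp5) ω h v
  have hord₁ : ∀ v : Place (IsLocalRing.ResidueField A) (FRes A M),
      Om.ordHom v (tPsi h3M hA p x₀).1 = 0 :=
    hdesc _ (fun w => by rw [← hc₁]; exact hord₁' w)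
  have hord₂ : ∀ v : Place (IsLocalRing.ResidueField A) (FRes A M),
      Om.ordHom v (tPsi h3M hA p x₀).2 = 0 :=
    hdesc _ (fun w => by rw [← hc₂]; exact hord₂' w)
  -- the Hecke action at the level `M · 3`
  have heigΩ : ∀ (ℓ : ℕ) (hℓ : ℓ.Prime), S ℓ →
      tTΩ A M p ⟨ℓ, hℓ⟩ (tPsi h3M hA p x₀) = a ℓ • tPsi h3M hA p x₀ := by
    intro ℓ hℓ hSℓ
    rw [← tPsi_hecke h3M hA p ⟨ℓ, hℓ⟩ (hS ℓ hSℓ).2 x₀ hx₀, heig ℓ hℓ hSℓ,
      zsmul_of_add_on_tors (tPsi h3M hA p) (tPsi_add h3M hA p) _ x₀ hx₀]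
  have heig₁ : ∀ (ℓ : ℕ) [NeZero ℓ], S ℓ →
      Q4.heckeOm A M ℓ p (tPsi h3M hA p x₀).1 = a ℓ • (tPsi h3M hA p x₀).1 := by
    intro ℓ _ hSℓ
    exact congrArg Prod.fst (heigΩ ℓ (hS ℓ hSℓ).1 hSℓ)
  have heig₂ : ∀ (ℓ : ℕ) [NeZero ℓ], S ℓ →
      Q4.heckeOm A M ℓ p (tPsi h3M hA p x₀).2 = a ℓ • (tPsi h3M hA p x₀).2 := by
    intro ℓ _ hSℓ
    exact congrArg Prod.snd (heigΩ ℓ (hS ℓ hSℓ).1 hSℓ)
  -- one of the components is non-zero
  have hne : (tPsi h3M hA p x₀).1 ≠ 0 ∨ (tPsi h3M hA p x₀).2 ≠ 0 := by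
    by_contra hcon
    rw [not_or, not_not, not_not] at hcon
    apply hΨ
    refine Prod.ext ?_ ?_
    · rw [hc₁, hcon.1, _root_.map_zero]
      rfl
    · rw [hc₂, hcon.2, _root_.map_zero]
      rfl
  rcases hne with h1 | h2
  · exact Lift.exists_eigen_torsion_of_om h3M hA p hp.ne_zero h3p _ h1 hord₁ a S hS heig₁
  · exact Lift.exists_eigen_torsion_of_om h3M hA p hp.ne_zero h3p _ h2 hord₂ a S hS heig₂

end Aux

/-! ### Mazur's principle at `3` -/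

/-- **Mazur's principle at `3`, level `M · 3`.** -/
theorem mazurThree_aux (P : FreyPackage) (M : ℕ) [NeZero M]
    (hcond : P.IsConductorLevel (M * 3)) (hpN : ¬ P.p ∣ M * 3)
    (hirr : GaloisRepIsIrreducible (K := Qb) ℚ P.freyCurve P.p)
    (hmod : P.ModularRepOfLevel (M * 3)) (hunr : P.GaloisRepUnramifiedAt 3) :
    P.ModularRepOfLevel M := by
  have hpf : Fact P.p.Prime := ⟨P.pp⟩
  have h3M : ¬ 3 ∣ M := by
    rintro ⟨M', rfl⟩
    exact hcond.sq_not_dvd Nat.prime_three ⟨M', by ring⟩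
  obtain ⟨A, hA⟩ := Fermat.Agent.S13lib.exists_liesOverPrime Nat.prime_three
  obtain ⟨f, W, 𝔪, hf, hW, h𝔪, hp𝔪, hcong⟩ := hmod
  have hcong' : CongruentTo f 𝔪 W.apOfModel (IsTestPrime W (M * 3) P.p) :=
    fun ℓ hℓ => hcong ℓ hℓ.1 hℓ.2.1 hℓ.2.2.1 hℓ.2.2.2
  obtain ⟨V, e, hVt, he, hVeig⟩ := q1GenStmt P (M * 3) hirr f W 𝔪 hf hW h𝔪 hp𝔪 hcong'
  obtain ⟨x₀, hx₀V, hΨ, hres⟩ := exists_abelian_aux P h3M hA hirr hunr W hW V e hVt he
  -- the test primes of the auxiliary level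
  have hSsub : ∀ ℓ, IsTestPrime W (M * 4 * 3) P.p ℓ → IsTestPrime W (M * 3) P.p ℓ :=
    fun ℓ h => ⟨h.1, h.2.1, fun hd => h.2.2.1 (hd.trans (lvl_dvd M)), h.2.2.2⟩
  have hS : ∀ ℓ, IsTestPrime W (M * 4 * 3) P.p ℓ → ℓ.Prime ∧ ¬ ℓ ∣ M * 3 :=
    fun ℓ h => ⟨h.1, (hSsub ℓ h).2.2.1⟩
  obtain ⟨t, ht0, hpt, hte⟩ := exists_eigen_torsion_three h3M hA P.p P.hp5 x₀ (hVt hx₀V) hΨ hres
    W.apOfModel (IsTestPrime W (M * 4 * 3) P.p) hS
    (fun ℓ hℓ hSℓ => hVeig ℓ hℓ (hSsub ℓ hSℓ) x₀ hx₀V)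
  have hSM : ∀ ℓ, IsTestPrime W (M * 4 * 3) P.p ℓ → ℓ.Prime ∧ ¬ ℓ ∣ M :=
    fun ℓ h => ⟨h.1, fun hd => (hS ℓ h).2 (hd.trans (Dvd.intro 3 rfl))⟩
  obtain ⟨g, 𝔪', hg, h𝔪', hp𝔪', hcongg⟩ := torsEigenStmt M P.p P.pp t ht0 hpt W.apOfModel
    (IsTestPrime W (M * 4 * 3) P.p) hSM hte
  refine ⟨g, W, 𝔪', hg, hW, h𝔪', hp𝔪', ?_⟩
  intro ℓ hℓ hgood hℓM hℓp
  refine hcongg ℓ ⟨hℓ, hgood, fun hℓN' => ?_, hℓp⟩
  -- `ℓ ∣ M · 4 · 3`, `ℓ ∤ M` ⟹ `ℓ = 2` or `ℓ = 3`, bad primes of `W`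
  rcases (Nat.Prime.dvd_mul hℓ).1 hℓN' with h | h
  · rcases (Nat.Prime.dvd_mul hℓ).1 h with h | h
    · exact hℓM h
    · have h4 : ℓ ∣ 2 ^ 2 := by norm_num; exact h
      have hℓ2 : ℓ = 2 := (Nat.prime_dvd_prime_iff_eq hℓ Nat.prime_two).1 (hℓ.dvd_of_dvd_pow h4)
      subst hℓ2
      apply hgood
      refine badPrimeStmt P W 2 Nat.prime_two hW ?_
      have hb : (2 : ℤ) ∣ P.b := (ZMod.intCast_zmod_eq_zero_iff_dvd P.b 2).1 P.hb2
      exact Dvd.dvd.mul_right (Dvd.dvd.mul_left (by exact_mod_cast hb) P.a) P.c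
  · have hℓ3 : ℓ = 3 := (Nat.prime_dvd_prime_iff_eq hℓ Nat.prime_three).1 h
    subst hℓ3
    exact hgood (badPrimeStmt P W 3 Nat.prime_three hW
      (hcond.support 3 Nat.prime_three (Dvd.intro_left M rfl)))

/-- **Mazur's principle at `r = 3`.** -/
theorem mazurThreeStmt : MazurThreeStmt := by
  intro P N hcond hpN h3N hirr hmod hunr
  obtain ⟨M, rfl⟩ := h3N
  have hM : M ≠ 0 := fun h => hcond.pos.ne' (by rw [h, mul_zero])
  haveI : NeZero M := ⟨hM⟩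
  have key : ∀ (N₀ : ℕ), N₀ = M * 3 → P.IsConductorLevel N₀ → ¬ P.p ∣ N₀ →
      P.ModularRepOfLevel N₀ → P.ModularRepOfLevel M := by
    rintro N₀ rfl hc hp hm
    exact mazurThree_aux P M hc hp hirr hm hunr
  have h1 := key (3 * M) (mul_comm 3 M) hcond hpN hmod
  have key2 : ∀ (K : ℕ), K = M → P.ModularRepOfLevel K := by
    rintro K rfl
    exact h1
  exact key2 _ (Nat.mul_div_cancel_left M (by norm_num))

/-- **Mazur's principle at `r = 2, 3`.** -/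
theorem mazurSmallStmt : MazurSmallStmt := mazurSmall_of_three ram2Stmt mazurThreeStmt

end Fermat.Agent.S43lib.B0.Three

end
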