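/-
S43lib / B0 / Three / EigenES  (helper8)  — Project H, block B0, the prime `r = 3`.

**A Galois-equivariant copy of `E[p]` inside `J₀(N')[p]` is automatically Hecke-eigen.**

`ι : E[p] → J₀(N')[p]` additive and `G_ℚ`-equivariant.  For a test prime `ℓ` (good for `W`, `ℓ ∤ N' p`) and a
Frobenius element `φ` at `ℓ`: `φ² - a_ℓ φ + ℓ = 0` on `E[p]` (trace and determinant of Frobenius,
`S44lib.Q1.trace_det_rhoE_frob` + Cayley–Hamilton) and `φ² - T_ℓ φ + ℓ = 0` on `J₀(N')[p]`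
(Eichler–Shimura, `S29lib.LocalData.frob`); hence `T_ℓ = a_ℓ` on the image of `ι`.
-/
import Fermat.Agent.S44lib.Q1.Main
import Fermat.Agent.Helper5.FrobExists

set_option autoImplicit false
set_option linter.unusedSectionVars false
set_option linter.style.haveILetI false

noncomputable section

namespace Fermat.Agent.S43lib.B0.Three

open ModularCurve Matrix Fermat.Agent.S29lib Fermat.Agent.S44lib Fermat.Agent.S19lib
open WeierstrassCurve WeierstrassCurve.Affine WeierstrassCurve.Affine.Point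
open Fermat.Agent.S44lib.Q1

local notation "Qb" => AlgebraicClosure ℚ
local notation "GQ" => (AlgebraicClosure ℚ ≃ₐ[ℚ] AlgebraicClosure ℚ)

/-- Cayley–Hamilton for `2 × 2` matrices, on vectors -/
theorem mulVec_quad {k : Type*} [CommRing k] (R : Matrix (Fin 2) (Fin 2) k) (v : Fin 2 → k) :
    R *ᵥ (R *ᵥ v) - R.trace • (R *ᵥ v) + R.det • v = 0 := by
  funext i
  fin_cases i <;>
    simp [Matrix.trace_fin_two, Matrix.det_fin_two] <;>
    ring

/-- **Hecke eigenvalues of a Galois-equivariant copy of `E[p]` in `J₀(N')[p]`.** -/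
theorem hecke_eq_of_galois_equivariant (P : FreyPackage) [hpf : Fact P.p.Prime]
    (W : WeierstrassCurve ℤ) (hΔ : W.Δ ≠ 0) (d : FreyTors P ≃+ (Fin 2 → ZMod P.p))
    (hd : ∀ (σ : GQ) (x : FreyTors P), d (σ • x) = rhoE W hΔ P.p σ *ᵥ d x)
    {N' : ℕ} [NeZero N'] (ι : FreyTors P →+ JZero N')
    (hι : ∀ (σ : GQ) (x : FreyTors P), ι (σ • x) = σ • ι x)
    (hιt : ∀ x, ι x ∈ tors N' (P.p : ℤ))
    {ℓ : ℕ} (hℓ : ℓ.Prime) (htest : IsTestPrime W N' P.p ℓ) (y : FreyTors P) :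
    heckeOperatorBar N' ⟨ℓ, hℓ⟩ (ι y) = (W.apOfModel ℓ) • ι y := by
  classical
  have hp : P.p.Prime := hpf.out
  obtain ⟨-, hgood, hℓN', hℓp⟩ := htest
  obtain ⟨Cd, -⟩ := Fermat.Agent.S29lib.Z.compStatement N' P.p hp
  have hloc : LocalData N' P.p :=
    Fermat.Agent.S29lib.GH.localData_of_comparisonData Cd hp.ne_zero
  obtain ⟨A, φ, hA, hφ⟩ := Fermat.Agent.Helper5.exists_isFrobeniusAt ℓ hℓ
  have hℓNp : ¬ ℓ ∣ N' * P.p := by
    intro hdv
    rcases (Nat.Prime.dvd_mul hℓ).1 hdv with h | h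
    · exact hℓN' h
    · exact hℓp ((Nat.prime_dvd_prime_iff_eq hℓ hp).1 h)
  obtain ⟨htr, hdet⟩ := trace_det_rhoE_frob W hΔ P.p hℓ hℓp hgood hA hφ
  -- `z = φ⁻¹ y`
  obtain ⟨z, hφz⟩ : ∃ z : FreyTors P, φ • z = y := ⟨φ⁻¹ • y, smul_inv_smul _ _⟩
  -- the quadratic relation on `E[p]`
  have hE : φ • φ • z - (W.apOfModel ℓ) • (φ • z) + (ℓ : ℤ) • z = 0 := by
    apply d.injective
    have h1 := mulVec_quad (rhoE W hΔ P.p φ) (d z)
    rw [htr, hdet] at h1
    rw [_root_.map_zero, map_add, map_sub, map_zsmul, map_zsmul, hd, hd, ← h1,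
      Int.cast_smul_eq_zsmul, ← Int.cast_natCast (R := ZMod P.p), Int.cast_smul_eq_zsmul]
  have hJ1 : φ • φ • ι z - (W.apOfModel ℓ) • (φ • ι z) + (ℓ : ℤ) • ι z = 0 := by
    have := congrArg ι hE
    rw [_root_.map_zero, map_add, map_sub, map_zsmul, map_zsmul, hι, hι] at this
    exact this
  -- Eichler–Shimura
  have hJ2 := hloc.frob ℓ hℓ hℓNp A hA φ hφ 1 (ι z) (mem_Tors_one_of_mem_tors (hιt z))
  have h3 : heckeOperatorBar N' ⟨ℓ, hℓ⟩ (φ • ι z) = (W.apOfModel ℓ) • (φ • ι z) := by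
    have h4 : heckeOperatorBar N' ⟨ℓ, hℓ⟩ (φ • ι z) - (W.apOfModel ℓ) • (φ • ι z) = 0 := by
      rw [← sub_eq_zero.2 (hJ1.trans hJ2.symm)]
      abel
    exact sub_eq_zero.1 h4
  rw [← hι, hφz] at h3
  exact h3

end Fermat.Agent.S43lib.B0.Three

end
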